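import Fermat.Agent.HeckeDual.Pairing

/-!
# Integral structures from Hecke-stable lattices in the dual space
-/

set_option autoImplicit false

noncomputable section

namespace Fermat.Agent.HeckeDual

open CongruenceSubgroup ModularFormClass Module

variable {N : ℕ} {k : ℤ}

/-- If the dual of `S_k` has a basis whose `ℤ`-span is stable under the Hecke algebra then `S_k` has
an integral structure. -/
theorem hasIntegralStructure_of_basis [NeZero N] (hk : 1 ≤ k)
    [FiniteDimensional ℂ (CuspForm (Gamma0 N) k)] {ι : Type*} [Finite ι]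
    (b : Basis ι ℂ (Dual ℂ (CuspForm (Gamma0 N) k)))
    (hb : ∀ t ∈ CuspForm.heckeAlgebra N k ∅, ∀ i, (b i) ∘ₗ t ∈ Submodule.span ℤ (Set.range b)) :
    CuspForm.HasIntegralStructure N k := by
  classical
  have := Fintype.ofFinite ι
  let e : ι → CuspForm (Gamma0 N) k := fun j => (evalEquiv ℂ _).symm (b.dualBasis j)
  have hbe : ∀ i j, b i (e j) = if i = j then 1 else 0 := by
    intro i j
    rw [apply_evalEquiv_symm_apply, Basis.dualBasis_apply_self]
  have hint : ∀ l ∈ Submodule.span ℤ (Set.range b), ∀ j, ∃ m : ℤ, l (e j) = m := by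
    intro l hl j
    induction hl using Submodule.span_induction with
    | mem x hx =>
      obtain ⟨i, rfl⟩ := hx
      refine ⟨if i = j then 1 else 0, ?_⟩
      rw [hbe]; split_ifs <;> simp
    | zero => exact ⟨0, by simp⟩
    | add x y _ _ hx hy =>
      obtain ⟨m, hm⟩ := hx
      obtain ⟨n, hn⟩ := hy
      exact ⟨m + n, by rw [LinearMap.add_apply, hm, hn]; push_cast; rfl⟩
    | smul c x _ hx =>
      obtain ⟨m, hm⟩ := hx
      exact ⟨c * m, by rw [LinearMap.smul_apply, hm, zsmul_eq_mul]; push_cast; rfl⟩
  -- the functionals `t ↦ bᵢ(t eⱼ)`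
  let lam : ι → ι → Dual ℂ (TC N k) := fun i j =>
    { toFun := fun t => b i (t.1 (e j))
      map_add' := fun t s => by simp
      map_smul' := fun c t => by simp }
  have hsurj := (pairL_bijective (N := N) hk).2
  choose h hh using fun i j => hsurj (lam i j)
  have hh' : ∀ i j, ∀ t ∈ TC N k, coeffL N k 1 (t (h i j)) = b i (t (e j)) := fun i j t ht =>
    LinearMap.congr_fun (hh i j) ⟨t, ht⟩
  have hmem : ∀ i j, h i j ∈ CuspForm.intLattice N k := by
    intro i j
    apply Submodule.subset_span
    intro n
    rcases Nat.eq_zero_or_pos n with rfl | hn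
    · exact ⟨0, by rw [Int.cast_zero]; exact coeffL_zero _⟩
    · obtain ⟨t, ht, htf⟩ := exists_tn (N := N) (k := k) hk n hn
      obtain ⟨m, hm⟩ := hint _ (hb t ht i) j
      refine ⟨m, ?_⟩
      change coeffL N k n (h i j) = m
      rw [← htf, hh' i j t (mem_TC ht)]
      exact hm
  rw [CuspForm.HasIntegralStructure, eq_top_iff]
  intro f _
  -- expand `f` and `a₁`
  have hf : f = ∑ j, b j f • e j := by
    have : ∀ l : Dual ℂ (CuspForm (Gamma0 N) k), l f = l (∑ j, b j f • e j) := by
      intro l
      have hl : l = ∑ i, b.repr l i • b i := (b.sum_repr l).symm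
      rw [hl]
      simp only [LinearMap.sum_apply, LinearMap.smul_apply, map_sum, map_smul, hbe]
      refine Finset.sum_congr rfl fun i _ => ?_
      simp [mul_comm]
    rw [← sub_eq_zero, ← Module.forall_dual_apply_eq_zero_iff ℂ]
    intro l
    rw [map_sub, this l, sub_self]
  have ha : coeffL N k 1 = ∑ i, b.repr (coeffL N k 1) i • b i := (b.sum_repr _).symm
  set c := b.repr (coeffL N k 1) with hc
  have key : f = ∑ i, ∑ j, (c i * b j f) • h i j := by
    apply pairL_injective (N := N) hk
    ext t
    rw [pairL_apply, pairL_apply, map_sum, map_sum]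
    have h1 : coeffL N k 1 (t.1 f) = ∑ i, ∑ j, (c i * b j f) * b i (t.1 (e j)) := by
      conv_lhs => rw [ha, hf]
      simp only [LinearMap.sum_apply, LinearMap.smul_apply, map_sum, map_smul, smul_eq_mul,
        Finset.mul_sum]
      rw [Finset.sum_comm]
      refine Finset.sum_congr rfl fun i _ => Finset.sum_congr rfl fun j _ => ?_
      ring
    rw [h1]
    refine Finset.sum_congr rfl fun i _ => ?_
    rw [map_sum, map_sum]
    refine Finset.sum_congr rfl fun j _ => ?_
    rw [map_smul, map_smul, hh' i j t.1 t.2, smul_eq_mul]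
  rw [key]
  refine Submodule.sum_mem _ fun i _ => Submodule.sum_mem _ fun j _ => Submodule.smul_mem _ _ ?_
  exact Submodule.subset_span (hmem i j)

end Fermat.Agent.HeckeDual
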