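import Fermat.Prelude.Def_CuspForm_HeckeAlgebra
import Fermat.Prelude.Def_CuspForm_IntegralStructure
import Fermat.Prelude.Thm_CongruenceSubgroup_one_mem_strictPeriods_Gamma0
import Fermat.Prelude.Thm_ModularFormClass_qCoeff_heckeT
import Fermat.Prelude.Thm_ModularFormClass_qCoeff_heckeU

/-!
# The pairing `(t, f) ↦ a₁(t f)` between the full Hecke algebra and cusp forms
-/

set_option autoImplicit false

noncomputable section

namespace Fermat.Agent.HeckeDual

open CongruenceSubgroup ModularFormClass Module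

variable (N : ℕ) (k : ℤ)

/-- the `n`-th coefficient as a linear functional -/
def coeffL (n : ℕ) : Dual ℂ (CuspForm (Gamma0 N) k) where
  toFun f := qCoeff f n
  map_add' f g := by
    have h := ModularForm.qExpansion_add one_pos (one_mem_strictPeriods_Gamma0 N) f g
    simp only [qCoeff]
    rw [FunLike.coe_add, h, map_add]
  map_smul' c f := by
    have h := ModularForm.qExpansion_smul one_pos (one_mem_strictPeriods_Gamma0 N) c f
    simp only [qCoeff]
    rw [FunLike.coe_smul, h]
    simp

variable {N k}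

theorem coeffL_apply (n : ℕ) (f : CuspForm (Gamma0 N) k) : coeffL N k n f = qCoeff f n := rfl

theorem coeffL_zero (f : CuspForm (Gamma0 N) k) : coeffL N k 0 f = 0 :=
  CuspFormClass.qExpansion_coeff_zero f one_pos (one_mem_strictPeriods_Gamma0 N)

theorem eq_zero_of_coeffL (f : CuspForm (Gamma0 N) k) (h : ∀ n, 0 < n → coeffL N k n f = 0) :
    f = 0 := by
  have : Fact (IsCusp OnePoint.infty ((Gamma0 N : Subgroup (GL (Fin 2) ℝ)))) :=
    ⟨Subgroup.isCusp_of_mem_strictPeriods one_pos (one_mem_strictPeriods_Gamma0 N)⟩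
  have h0 : UpperHalfPlane.qExpansion 1 ⇑f = 0 := by
    ext n
    rcases Nat.eq_zero_or_pos n with rfl | hn
    · exact coeffL_zero f
    · exact h n hn
  have h1 := (UpperHalfPlane.qExpansion_eq_zero_iff one_pos
    (SlashInvariantFormClass.periodic_comp_ofComplex f (one_mem_strictPeriods_Gamma0 N))
    (ModularFormClass.holo f) (ModularFormClass.bdd_at_infty f)).1 h0
  exact DFunLike.coe_injective (h1.trans FunLike.coe_zero.symm)

theorem coeffL_heckeT [NeZero N] {p : ℕ} (hp : p.Prime) (hpN : ¬ p ∣ N) (n : ℕ)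
    (f : CuspForm (Gamma0 N) k) :
    coeffL N k n (CuspForm.heckeTLin k hp hpN f) =
      coeffL N k (n * p) f + if p ∣ n then (p : ℂ) ^ (k - 1) * coeffL N k (n / p) f else 0 := by
  rw [coeffL_apply, CuspForm.coe_heckeTLin_apply,
    ModularFormClass.qCoeff_heckeT f (one_mem_strictPeriods_Gamma0 N) hp.ne_zero]
  rfl

theorem coeffL_heckeU [NeZero N] {p : ℕ} (hp : p.Prime) (hpN : p ∣ N) (n : ℕ)
    (f : CuspForm (Gamma0 N) k) :
    coeffL N k n (CuspForm.heckeULin k hpN f) = coeffL N k (n * p) f := by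
  rw [coeffL_apply, CuspForm.coe_heckeULin_apply,
    ModularFormClass.qCoeff_heckeU f (one_mem_strictPeriods_Gamma0 N) hp.ne_zero]
  rfl

/-- The `n`-th Hecke operator, characterised by `a₁(tₙ f) = aₙ(f)`. -/
theorem exists_tn [NeZero N] (hk : 1 ≤ k) (n : ℕ) (hn : 0 < n) :
    ∃ t ∈ CuspForm.heckeAlgebra N k ∅, ∀ f, coeffL N k 1 (t f) = coeffL N k n f := by
  induction n using Nat.strong_induction_on with
  | _ n ih =>
    rcases Nat.lt_or_ge 1 n with h1 | h1
    swap
    · obtain rfl : n = 1 := by omega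
      exact ⟨1, one_mem _, fun f => rfl⟩
    set p := n.minFac with hp'
    have hp : p.Prime := Nat.minFac_prime (by omega)
    obtain ⟨m, hm⟩ : p ∣ n := Nat.minFac_dvd n
    have hm0 : 0 < m := Nat.pos_of_ne_zero (by rintro rfl; omega)
    have hmn : m < n := by rw [hm]; exact lt_mul_of_one_lt_left hm0 hp.one_lt
    have hmp : m * p = n := by rw [hm]; ring
    obtain ⟨t, ht, htf⟩ := ih m hmn hm0
    by_cases hpN : p ∣ N
    · refine ⟨t * CuspForm.heckeULin k hpN, mul_mem ht
        (CuspForm.heckeULin_mem_heckeAlgebra hp hpN (by simp)), fun f => ?_⟩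
      rw [Module.End.mul_apply, htf, coeffL_heckeU hp hpN, hmp]
    · by_cases hpm : p ∣ m
      · obtain ⟨m', hm'⟩ := hpm
        have hm'0 : 0 < m' := Nat.pos_of_ne_zero (by rintro rfl; omega)
        have hm'm : m' < m := by rw [hm']; exact lt_mul_of_one_lt_left hm'0 hp.one_lt
        obtain ⟨t', ht', htf'⟩ := ih m' (hm'm.trans hmn) hm'0
        refine ⟨t * CuspForm.heckeTLin k hp hpN - ((p : ℤ) ^ (k - 1).toNat) • t', sub_mem (mul_mem ht
          (CuspForm.heckeTLin_mem_heckeAlgebra hp hpN (by simp))) (zsmul_mem ht' _), fun f => ?_⟩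
        rw [LinearMap.sub_apply, Module.End.mul_apply, map_sub, htf, coeffL_heckeT hp hpN, hmp,
          if_pos ⟨m', hm'⟩, hm', Nat.mul_div_cancel_left _ hp.pos, LinearMap.smul_apply,
          map_zsmul, htf', zsmul_eq_mul]
        have : (p : ℂ) ^ (k - 1) = (((p : ℤ) ^ (k - 1).toNat : ℤ) : ℂ) := by
          rw [show (k - 1) = (((k - 1).toNat : ℕ) : ℤ) by omega, zpow_natCast]
          simp
        rw [this]
        ring
      · refine ⟨t * CuspForm.heckeTLin k hp hpN, mul_mem ht
          (CuspForm.heckeTLin_mem_heckeAlgebra hp hpN (by simp)), fun f => ?_⟩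
        rw [Module.End.mul_apply, htf, coeffL_heckeT hp hpN, hmp, if_neg hpm, add_zero]

variable (N k) in
/-- complex span of the Hecke algebra -/
def TC [NeZero N] : Submodule ℂ (Module.End ℂ (CuspForm (Gamma0 N) k)) :=
  Submodule.span ℂ (CuspForm.heckeAlgebra N k ∅ : Set (Module.End ℂ (CuspForm (Gamma0 N) k)))

theorem mem_TC [NeZero N] {t : Module.End ℂ (CuspForm (Gamma0 N) k)}
    (ht : t ∈ CuspForm.heckeAlgebra N k ∅) : t ∈ TC N k := Submodule.subset_span ht

theorem TC_comm [NeZero N] {t s : Module.End ℂ (CuspForm (Gamma0 N) k)} (ht : t ∈ TC N k)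
    (hs : s ∈ CuspForm.heckeAlgebra N k ∅) : t * s = s * t := by
  induction ht using Submodule.span_induction with
  | mem x hx =>
    have := mul_comm (⟨x, hx⟩ : CuspForm.heckeAlgebra N k ∅) ⟨s, hs⟩
    exact congrArg Subtype.val this
  | zero => rw [zero_mul, mul_zero]
  | add x y _ _ hx hy => rw [add_mul, mul_add, hx, hy]
  | smul c x _ hx => rw [smul_mul_assoc, mul_smul_comm, hx]

theorem eq_zero_of_pair_right [NeZero N] (hk : 1 ≤ k) (f : CuspForm (Gamma0 N) k)
    (h : ∀ t ∈ CuspForm.heckeAlgebra N k ∅, coeffL N k 1 (t f) = 0) : f = 0 := by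
  apply eq_zero_of_coeffL
  intro n hn
  obtain ⟨t, ht, htf⟩ := exists_tn (N := N) (k := k) hk n hn
  rw [← htf, h t ht]

theorem eq_zero_of_pair_left [NeZero N] (hk : 1 ≤ k) (t : Module.End ℂ (CuspForm (Gamma0 N) k))
    (ht : t ∈ TC N k) (h : ∀ f, coeffL N k 1 (t f) = 0) : t = 0 := by
  ext1 f
  apply eq_zero_of_pair_right hk
  intro s hs
  rw [← Module.End.mul_apply, ← TC_comm ht hs, Module.End.mul_apply, h]

variable (N k) in
/-- the pairing as a map to the dual of the Hecke algebra -/
def pairL [NeZero N] : CuspForm (Gamma0 N) k →ₗ[ℂ] Dual ℂ (TC N k) where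
  toFun f :=
    { toFun := fun t => coeffL N k 1 (t.1 f)
      map_add' := fun t s => by simp
      map_smul' := fun c t => by simp }
  map_add' f g := by ext t; simp
  map_smul' c f := by ext t; simp

@[simp] theorem pairL_apply [NeZero N] (f : CuspForm (Gamma0 N) k) (t : TC N k) :
    pairL N k f t = coeffL N k 1 (t.1 f) := rfl

theorem pairL_injective [NeZero N] (hk : 1 ≤ k) : Function.Injective (pairL N k) := by
  rw [injective_iff_map_eq_zero]
  intro f hf
  apply eq_zero_of_pair_right hk
  intro t ht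
  exact LinearMap.congr_fun hf ⟨t, mem_TC ht⟩

theorem pairL_bijective [NeZero N] (hk : 1 ≤ k) [FiniteDimensional ℂ (CuspForm (Gamma0 N) k)] :
    Function.Bijective (pairL N k) := by
  let ψ : TC N k →ₗ[ℂ] Dual ℂ (CuspForm (Gamma0 N) k) :=
    { toFun := fun t => (coeffL N k 1) ∘ₗ t.1
      map_add' := fun t s => LinearMap.comp_add _ _ _
      map_smul' := fun c t => LinearMap.comp_smul _ _ _ }
  have hψ : Function.Injective ψ := by
    rw [injective_iff_map_eq_zero]
    intro t ht
    exact Subtype.ext (eq_zero_of_pair_left hk t.1 t.2 fun f => LinearMap.congr_fun ht f)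
  have h1 := LinearMap.finrank_le_finrank_of_injective hψ
  have h2 := LinearMap.finrank_le_finrank_of_injective (pairL_injective (N := N) hk)
  rw [Subspace.dual_finrank_eq] at h1 h2
  have h3 : finrank ℂ (CuspForm (Gamma0 N) k) = finrank ℂ (Dual ℂ (TC N k)) := by
    rw [Subspace.dual_finrank_eq]; exact le_antisymm h2 h1
  exact ⟨pairL_injective hk, (LinearMap.injective_iff_surjective_of_finrank_eq_finrank h3).1
    (pairL_injective hk)⟩

end Fermat.Agent.HeckeDual
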